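import Mathlib
import Fermat.Agent.LT.T5.Spec
import Fermat.Agent.LT.T1.Spec

/-!
# Row LT, tower T5, leaf T5.08 `LeafTwUnfold` (helper71)

OFF-MAIN.  Unfolding of the diagonal integral of the twisted kernel into the sum over the
σ-conjugacy classes.

Spec v3 (FREEZE, helper32@c970d419b, sha256 d6f8b00ae5f1).

* `leafTwUnfold_of_slab71` : if `GL₂(K)` preserves the slab, then `LeafTwUnfold s 𝔫 τ`;
* `leafTwUnfold_of71 : T1.AdNormC K → LeafTwUnfold s 𝔫 τ` (the slab is preserved by the product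
  formula, which is part of `T1.AdNormC`).

The hypotheses `IsTestFn`, `IsRayGen` and the finite volume of `F` are not used.

No discreteness, no summability of the kernel is used: the measure theory is
`hasSum_integral_of_summable_integral_norm` for the family `(c, g) ↦ 1_{F ∩ g⁻¹ F_c} · f_c ∘ g`
and the reindexing of the sum over `δ` is `tsum_eq_tsum_of_ne_zero_bij`.
-/

set_option autoImplicit false

open IsDedekindDomain NumberField MeasureTheory
open scoped MatrixGroups ComplexConjugate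

noncomputable section

namespace Fermat.Agent.LT.T5.H71


section abstract71

variable {X : Type*} [Group X] {Γ : Type*} [Group Γ] {E : Type*} [NormedAddCommGroup E]

/-- The piece `D ∩ g F` of `D`. -/
def piece71 (ι : Γ →* X) (F D : Set X) (g : Γ) : Set X :=
  D ∩ (fun y => ι g⁻¹ * y) ⁻¹' F

/-- The function `x ↦ f (g x)` cut off to `F ∩ g⁻¹ D`. -/
def wfun71 (ι : Γ →* X) (F D : Set X) (f : X → E) (g : Γ) : X → E :=
  fun x => (F ∩ (fun x => ι g * x) ⁻¹' D).indicator (fun x => f (ι g * x)) x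

theorem wfun71_eq_comp (ι : Γ →* X) (F D : Set X) (f : X → E) (g : Γ) :
    wfun71 ι F D f g = ((piece71 ι F D g).indicator f) ∘ (fun x => ι g * x) := by
  funext x
  by_cases h : x ∈ F ∧ ι g * x ∈ D
  · have h1 : x ∈ F ∩ (fun x => ι g * x) ⁻¹' D := ⟨h.1, h.2⟩
    have h2 : ι g * x ∈ piece71 ι F D g := by
      refine ⟨h.2, ?_⟩
      simp only [Set.mem_preimage, map_inv, inv_mul_cancel_left]
      exact h.1
    simp only [wfun71, Function.comp, Set.indicator_of_mem h1, Set.indicator_of_mem h2]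
  · have h1 : x ∉ F ∩ (fun x => ι g * x) ⁻¹' D := fun hx => h ⟨hx.1, hx.2⟩
    have h2 : ι g * x ∉ piece71 ι F D g := by
      intro hx
      refine h ⟨?_, hx.1⟩
      have := hx.2
      simpa only [Set.mem_preimage, map_inv, inv_mul_cancel_left] using this
    simp only [wfun71, Function.comp, Set.indicator_of_notMem h1, Set.indicator_of_notMem h2]

theorem wfun71_of_notMem (ι : Γ →* X) (F D : Set X) (f : X → E) (g : Γ) {x : X}
    (hx : x ∉ F) : wfun71 ι F D f g x = 0 := by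
  unfold wfun71
  exact Set.indicator_of_notMem (fun h => hx h.1) _

theorem wfun71_of_ne_zero (ι : Γ →* X) (F D : Set X) (f : X → E) (g : Γ) {x : X}
    (hx : wfun71 ι F D f g x ≠ 0) :
    x ∈ F ∧ ι g * x ∈ D ∧ wfun71 ι F D f g x = f (ι g * x) := by
  unfold wfun71 at hx ⊢
  have h1 : x ∈ F ∩ (fun x => ι g * x) ⁻¹' D := by
    by_contra h
    exact hx (Set.indicator_of_notMem h _)
  exact ⟨h1.1, h1.2, Set.indicator_of_mem h1 _⟩

theorem wfun71_of_mem (ι : Γ →* X) (F D : Set X) (f : X → E) (g : Γ) {x : X}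
    (hx : x ∈ F) (hgx : ι g * x ∈ D) : wfun71 ι F D f g x = f (ι g * x) := by
  unfold wfun71
  have h1 : x ∈ F ∩ (fun x => ι g * x) ⁻¹' D := ⟨hx, hgx⟩
  exact Set.indicator_of_mem h1 _

variable [MeasurableSpace X] [MeasurableMul X]

theorem measurableSet_piece71 (ι : Γ →* X) {F D : Set X} (hF : MeasurableSet F)
    (hD : MeasurableSet D) (g : Γ) : MeasurableSet (piece71 ι F D g) :=
  hD.inter ((measurable_const_mul (ι g⁻¹)) hF)

omit [MeasurableSpace X] [MeasurableMul X] in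
theorem pairwise_disjoint_piece71 (ι : Γ →* X) {F D : Set X}
    (hcov : ∀ y ∈ D, ∃! γ : Γ, ι γ * y ∈ F) :
    Pairwise (Function.onFun Disjoint (piece71 ι F D)) := by
  intro g g' hgg'
  rw [Function.onFun, Set.disjoint_left]
  intro y hy hy'
  apply hgg'
  have := (hcov y hy.1).unique hy.2 hy'.2
  exact inv_injective this

omit [MeasurableSpace X] [MeasurableMul X] in
theorem iUnion_piece71 (ι : Γ →* X) {F D : Set X}
    (hcov : ∀ y ∈ D, ∃! γ : Γ, ι γ * y ∈ F) :
    ⋃ g, piece71 ι F D g = D := by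
  ext y
  simp only [Set.mem_iUnion]
  constructor
  · rintro ⟨g, hg⟩
    exact hg.1
  · intro hy
    obtain ⟨γ, hγ, -⟩ := hcov y hy
    refine ⟨γ⁻¹, hy, ?_⟩
    simpa only [Set.mem_preimage, inv_inv] using hγ

variable [NormedSpace ℝ E] (μ : Measure X) [μ.IsMulLeftInvariant]

omit [NormedSpace ℝ E] in
theorem integrable_wfun71 (ι : Γ →* X) {F D : Set X} (hF : MeasurableSet F)
    (hD : MeasurableSet D) {f : X → E} (hf : IntegrableOn f D μ) (g : Γ) :
    Integrable (wfun71 ι F D f g) μ := by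
  rw [wfun71_eq_comp]
  refine ((measurePreserving_mul_left μ (ι g)).integrable_comp_emb
    (MeasurableEquiv.mulLeft (ι g)).measurableEmbedding).2 ?_
  exact (hf.mono_set Set.inter_subset_left).integrable_indicator (measurableSet_piece71 ι hF hD g)

theorem integral_wfun71 (ι : Γ →* X) {F D : Set X} (hF : MeasurableSet F)
    (hD : MeasurableSet D) (f : X → E) (g : Γ) :
    ∫ x, wfun71 ι F D f g x ∂μ = ∫ x in piece71 ι F D g, f x ∂μ := by
  rw [wfun71_eq_comp]
  have := (measurePreserving_mul_left μ (ι g)).integral_comp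
    (MeasurableEquiv.mulLeft (ι g)).measurableEmbedding ((piece71 ι F D g).indicator f)
  simp only [Function.comp]
  rw [this, integral_indicator (measurableSet_piece71 ι hF hD g)]

omit [NormedSpace ℝ E] in
theorem integral_norm_wfun71 (ι : Γ →* X) {F D : Set X} (hF : MeasurableSet F)
    (hD : MeasurableSet D) (f : X → E) (g : Γ) :
    ∫ x, ‖wfun71 ι F D f g x‖ ∂μ = ∫ x in piece71 ι F D g, ‖f x‖ ∂μ := by
  rw [wfun71_eq_comp]
  have := (measurePreserving_mul_left μ (ι g)).integral_comp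
    (MeasurableEquiv.mulLeft (ι g)).measurableEmbedding
    (fun y => ‖(piece71 ι F D g).indicator f y‖)
  simp only [Function.comp]
  rw [this]
  simp only [norm_indicator_eq_indicator_norm]
  rw [integral_indicator (measurableSet_piece71 ι hF hD g)]

variable [Countable Γ]

theorem hasSum_integral_wfun71 (ι : Γ →* X) {F D : Set X} (hF : MeasurableSet F)
    (hD : MeasurableSet D) (hcov : ∀ y ∈ D, ∃! γ : Γ, ι γ * y ∈ F)
    {f : X → E} (hf : IntegrableOn f D μ) :
    HasSum (fun g => ∫ x, wfun71 ι F D f g x ∂μ) (∫ x in D, f x ∂μ) := by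
  have h := hasSum_integral_iUnion (μ := μ) (f := f) (measurableSet_piece71 ι hF hD)
    (pairwise_disjoint_piece71 ι hcov) (by rw [iUnion_piece71 ι hcov]; exact hf)
  rw [iUnion_piece71 ι hcov] at h
  simpa only [integral_wfun71 μ ι hF hD] using h

omit [NormedSpace ℝ E] in
theorem summable_integral_norm_wfun71 (ι : Γ →* X) {F D : Set X} (hF : MeasurableSet F)
    (hD : MeasurableSet D) (hcov : ∀ y ∈ D, ∃! γ : Γ, ι γ * y ∈ F)
    {f : X → E} (hf : IntegrableOn f D μ) :
    Summable (fun g => ∫ x, ‖wfun71 ι F D f g x‖ ∂μ) := by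
  have h := hasSum_integral_iUnion (μ := μ) (f := fun x => ‖f x‖)
    (measurableSet_piece71 ι hF hD)
    (pairwise_disjoint_piece71 ι hcov) (by rw [iUnion_piece71 ι hcov]; exact hf.norm)
  simpa only [integral_norm_wfun71 μ ι hF hD] using h.summable

end abstract71


section concrete71

open Fermat.Agent.LT.H556.A0 Fermat.Agent.LT.T5

attribute [local instance] Fermat.Agent.LT.T5.instMeasurableSpaceG

variable {K : Type} [Field K] [NumberField K]

theorem countable_field71 (K : Type) [Field K] [NumberField K] : Countable K :=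
  (Module.finBasis ℚ K).equivFun.injective.countable

theorem countable_gl71 (K : Type) [Field K] [NumberField K] : Countable (GL (Fin 2) K) := by
  have h1 := countable_field71 K
  have h2 : Countable (Matrix (Fin 2) (Fin 2) K) := by
    show Countable (Fin 2 → Fin 2 → K)
    infer_instance
  exact (Units.val_injective (α := Matrix (Fin 2) (Fin 2) K)).countable

/-- `f_{g⁻¹ δ σ(g)}(x) = f_δ(g x)`. -/
theorem twTerm_tw71 (r : G K) (s : AdelicAut K) (φ : G K → ℂ)
    (hrat : ∀ γ : GL (Fin 2) K, s.onG (ratG γ) = ratG (s.onRat γ))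
    (δ g : GL (Fin 2) K) (x : G K) :
    twTerm r s φ (g⁻¹ * δ * s.onRat g) x = twTerm r s φ δ (ratG g * x) := by
  unfold twTerm
  congr 1
  rw [map_mul s.onG, hrat]
  simp only [map_mul, map_inv, mul_inv_rev, mul_assoc]

/-- The module of the determinant is invariant under `GL₂(K)` (product formula). -/
theorem adNorm_det_ratG_mul71 (h : Fermat.Agent.LT.T1.AdNormC K) (γ : GL (Fin 2) K) (g : G K) :
    adNorm (Matrix.det ((ratG γ * g : G K) : Matrix (Fin 2) (Fin 2) (Adl K)))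
      = adNorm (Matrix.det (g : Matrix (Fin 2) (Fin 2) (Adl K))) := by
  obtain ⟨-, hmul, hrat, -⟩ := h
  have e1 : Matrix.det ((ratG γ * g : G K) : Matrix (Fin 2) (Fin 2) (Adl K))
      = ((Fermat.Agent.LT.T1.ratUnit K (Matrix.GeneralLinearGroup.det γ)
          * Matrix.GeneralLinearGroup.det g : (Adl K)ˣ) : Adl K) := by
    simp [ratG, Fermat.Agent.LT.T1.ratUnit, Matrix.det_mul, RingHom.map_det]
  have e2 : Matrix.det (g : Matrix (Fin 2) (Fin 2) (Adl K))
      = ((Matrix.GeneralLinearGroup.det g : (Adl K)ˣ) : Adl K) := rfl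
  have e3 : ∀ x : Adl K, adNorm x = Fermat.Agent.LT.T1.adNorm K x := fun _ => rfl
  rw [e1, e3, hmul, hrat, one_mul, e3, e2]

/-- `GL₂(K)` preserves the slab. -/
theorem slab_ratG_mul71 (h : Fermat.Agent.LT.T1.AdNormC K) (γ : GL (Fin 2) K) (g : G K)
    (hg : g ∈ slab K) : ratG γ * g ∈ slab K := by
  have hg' : 1 ≤ adNorm (Matrix.det (g : Matrix (Fin 2) (Fin 2) (Adl K))) ∧
      adNorm (Matrix.det (g : Matrix (Fin 2) (Fin 2) (Adl K))) < 2 := hg
  show 1 ≤ adNorm (Matrix.det ((ratG γ * g : G K) : Matrix (Fin 2) (Fin 2) (Adl K))) ∧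
      adNorm (Matrix.det ((ratG γ * g : G K) : Matrix (Fin 2) (Fin 2) (Adl K))) < 2
  rw [adNorm_det_ratG_mul71 h γ g]
  exact hg'

/-- The family indexed by the pairs (class meeting the diagonal, element of `GL₂(K)`). -/
def Wfam71 (r : G K) (s : AdelicAut K) (φ : G K → ℂ) (F : Set (G K))
    (C₀ : Finset (TwClass s)) (rep : TwClass s → GL (Fin 2) K) (Fc : TwClass s → Set (G K))
    (p : ↥C₀ × GL (Fin 2) K) : G K → ℂ :=
  wfun71 ratG F (Fc p.1) (twTerm r s φ (rep p.1)) p.2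

theorem mk_tw71 (s : AdelicAut K) (δ g : GL (Fin 2) K) :
    Quotient.mk (twSetoid s) (g⁻¹ * δ * s.onRat g) = Quotient.mk (twSetoid s) δ :=
  Quotient.sound (twConj_symm s ⟨g, rfl⟩)

/-- The sum over `δ` is the sum over the pairs, pointwise on `F`. -/
theorem tsum_twTerm_eq71 (r : G K) (s : AdelicAut K) (φ : G K → ℂ) (F : Set (G K))
    (C₀ : Finset (TwClass s)) (rep : TwClass s → GL (Fin 2) K) (Fc : TwClass s → Set (G K))
    (hrat : ∀ γ : GL (Fin 2) K, s.onG (ratG γ) = ratG (s.onRat γ))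
    (hslab : ∀ (γ : GL (Fin 2) K) (g : G K), g ∈ slab K → ratG γ * g ∈ slab K)
    (hFsub : F ⊆ slab K)
    (hC₀ : ∀ (δ : GL (Fin 2) K) (x : G K), twTerm r s φ δ x ≠ 0 →
      Quotient.mk (twSetoid s) δ ∈ C₀)
    (hrep : ∀ c, Quotient.mk (twSetoid s) (rep c) = c)
    (hFc : ∀ c, IsTwDomain s (rep c) (Fc c))
    (x : G K) (hx : x ∈ F) :
    ∑' δ : GL (Fin 2) K, twTerm r s φ δ x
      = ∑' p : ↥C₀ × GL (Fin 2) K, Wfam71 r s φ F C₀ rep Fc p x := by
  refine tsum_eq_tsum_of_ne_zero_bij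
    (fun p => (p.1.2)⁻¹ * rep p.1.1 * s.onRat p.1.2) ?_ ?_ ?_
  · -- injectivity
    rintro ⟨⟨c, g⟩, hp⟩ ⟨⟨c', g'⟩, hp'⟩ h
    simp only at h
    rw [Function.mem_support] at hp hp'
    obtain ⟨-, hgx, -⟩ := wfun71_of_ne_zero ratG F (Fc c) (twTerm r s φ (rep c)) g hp
    obtain ⟨-, hgx', -⟩ := wfun71_of_ne_zero ratG F (Fc c') (twTerm r s φ (rep c')) g' hp'
    have hcc : (c : TwClass s) = c' := by
      have e1 := mk_tw71 s (rep c) g
      have e2 := mk_tw71 s (rep c') g'
      rw [hrep] at e1 e2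
      rw [← e1, ← e2, h]
    have hcc' : c = c' := Subtype.ext hcc
    subst hcc'
    have hη : g' * g⁻¹ ∈ twStab s (rep c) := by
      show (g' * g⁻¹)⁻¹ * rep c * s.onRat (g' * g⁻¹) = rep c
      calc (g' * g⁻¹)⁻¹ * rep c * s.onRat (g' * g⁻¹)
          = g * (g'⁻¹ * rep c * s.onRat g') * (s.onRat g)⁻¹ := by
            simp only [map_mul, map_inv, mul_inv_rev, inv_inv, mul_assoc]
        _ = g * (g⁻¹ * rep c * s.onRat g) * (s.onRat g)⁻¹ := by rw [h]
        _ = rep c := by simp only [mul_assoc, mul_inv_cancel_left, mul_inv_cancel, mul_one]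
    have hy : ratG g * x ∈ slab K := (hFc c).sub hgx
    have huniq := (hFc c).strict _ hy
    have h1 : ratG ((1 : twStab s (rep c)) : GL (Fin 2) K) * (ratG g * x) ∈ Fc c := by
      simpa only [OneMemClass.coe_one, map_one, one_mul] using hgx
    have h2 : ratG ((⟨g' * g⁻¹, hη⟩ : twStab s (rep c)) : GL (Fin 2) K) * (ratG g * x)
        ∈ Fc c := by
      simpa only [map_mul, map_inv, mul_assoc, inv_mul_cancel_left] using hgx'
    have h3 := huniq.unique h2 h1
    have h4 : g' * g⁻¹ = 1 := congrArg Subtype.val h3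
    have h5 : g' = g := by rwa [mul_inv_eq_one] at h4
    subst h5
    rfl
  · -- surjectivity onto the support
    intro δ hδ
    rw [Function.mem_support] at hδ
    have hc := hC₀ δ x hδ
    have hconj : TwConj s (rep (Quotient.mk (twSetoid s) δ)) δ :=
      Quotient.exact (hrep (Quotient.mk (twSetoid s) δ))
    obtain ⟨g₀, hg₀⟩ := hconj
    have hy₀ : ratG g₀ * x ∈ slab K := hslab g₀ x (hFsub hx)
    obtain ⟨η, hη, -⟩ := (hFc (Quotient.mk (twSetoid s) δ)).strict _ hy₀
    have hη' : ((η : GL (Fin 2) K))⁻¹ * rep (Quotient.mk (twSetoid s) δ)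
        * s.onRat (η : GL (Fin 2) K) = rep (Quotient.mk (twSetoid s) δ) := η.2
    have himg : ((η : GL (Fin 2) K) * g₀)⁻¹ * rep (Quotient.mk (twSetoid s) δ)
        * s.onRat ((η : GL (Fin 2) K) * g₀) = δ := by
      calc ((η : GL (Fin 2) K) * g₀)⁻¹ * rep (Quotient.mk (twSetoid s) δ)
            * s.onRat ((η : GL (Fin 2) K) * g₀)
          = g₀⁻¹ * (((η : GL (Fin 2) K))⁻¹ * rep (Quotient.mk (twSetoid s) δ)
              * s.onRat (η : GL (Fin 2) K)) * s.onRat g₀ := by
            simp only [map_mul, mul_inv_rev, mul_assoc]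
        _ = g₀⁻¹ * rep (Quotient.mk (twSetoid s) δ) * s.onRat g₀ := by rw [hη']
        _ = δ := hg₀.symm
    have hmem : ratG ((η : GL (Fin 2) K) * g₀) * x ∈ Fc (Quotient.mk (twSetoid s) δ) := by
      simpa only [map_mul, mul_assoc] using hη
    have hval : Wfam71 r s φ F C₀ rep Fc (⟨Quotient.mk (twSetoid s) δ, hc⟩,
        (η : GL (Fin 2) K) * g₀) x = twTerm r s φ δ x := by
      unfold Wfam71
      rw [wfun71_of_mem ratG F _ _ _ hx hmem, ← twTerm_tw71 r s φ hrat, himg]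
    refine ⟨⟨(⟨Quotient.mk (twSetoid s) δ, hc⟩, (η : GL (Fin 2) K) * g₀), ?_⟩, himg⟩
    rw [Function.mem_support, hval]
    exact hδ
  · -- values
    rintro ⟨⟨c, g⟩, hp⟩
    rw [Function.mem_support] at hp
    obtain ⟨-, -, hval⟩ := wfun71_of_ne_zero ratG F (Fc c) (twTerm r s φ (rep c)) g hp
    show twTerm r s φ (g⁻¹ * rep c * s.onRat g) x = Wfam71 r s φ F C₀ rep Fc (c, g) x
    unfold Wfam71
    rw [hval, twTerm_tw71 r s φ hrat]

/-- **T5.08**, from the invariance of the slab under `GL₂(K)`. -/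
theorem leafTwUnfold_of_slab71 (s : AdelicAut K) (𝔫 : Ideal (𝓞 K)) (τ : G K → ℂ)
    (hslab : ∀ (γ : GL (Fin 2) K) (g : G K), g ∈ slab K → ratG γ * g ∈ slab K) :
    LeafTwUnfold s 𝔫 τ := by
  intro μ F r hF hr hP φ hφ hfin hint rep Fc hrep hFc
  have hB : BorelSpace (G K) := ⟨rfl⟩
  have hH := hF.haar
  have hCt := countable_gl71 K
  obtain ⟨C₀, hC₀⟩ : ∃ C₀ : Finset (TwClass s), ∀ (δ : GL (Fin 2) K) (x : G K),
      twTerm r s φ δ x ≠ 0 → Quotient.mk (twSetoid s) δ ∈ C₀ := by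
    refine ⟨hfin.toFinset, fun δ x h => ?_⟩
    rw [Set.Finite.mem_toFinset]
    exact ⟨δ, rfl, x, h⟩
  clear hfin
  have hcov : ∀ c, ∀ y ∈ Fc c, ∃! γ : GL (Fin 2) K, ratG γ * y ∈ F :=
    fun c y hy => hF.strict y ((hFc c).sub hy)
  have hWint : ∀ p, Integrable (Wfam71 r s φ F C₀ rep Fc p) μ := by
    intro p
    have h := integrable_wfun71 (E := ℂ) μ (ratG (K := K)) (F := F) (D := Fc p.1)
      (f := twTerm r s φ (rep p.1)) hF.meas (hFc p.1).meas (hint (rep p.1) (Fc p.1) (hFc p.1)) p.2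
    exact h
  have hclass : ∀ c : ↥C₀,
      HasSum (fun g => ∫ x, Wfam71 r s φ F C₀ rep Fc (c, g) x ∂μ)
        (∫ x in Fc c, twTerm r s φ (rep c) x ∂μ) := by
    intro c
    have h := hasSum_integral_wfun71 (E := ℂ) μ (ratG (K := K)) (F := F) (D := Fc c)
      (f := twTerm r s φ (rep c)) hF.meas (hFc c).meas (hcov c) (hint _ _ (hFc c))
    exact h
  have hclassN : ∀ c : ↥C₀,
      Summable (fun g => ∫ x, ‖Wfam71 r s φ F C₀ rep Fc (c, g) x‖ ∂μ) := by
    intro c
    have h := summable_integral_norm_wfun71 (E := ℂ) μ (ratG (K := K)) (F := F) (D := Fc c)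
      (f := twTerm r s φ (rep c)) hF.meas (hFc c).meas (hcov c) (hint _ _ (hFc c))
    exact h
  have hsumN : Summable (fun p => ∫ x, ‖Wfam71 r s φ F C₀ rep Fc p x‖ ∂μ) := by
    rw [summable_prod_of_nonneg (fun p => integral_nonneg (fun x => norm_nonneg _))]
    exact ⟨hclassN, Summable.of_finite⟩
  have hHS := hasSum_integral_of_summable_integral_norm hWint hsumN
  have e1 : ∫ x in F, twKer r s φ x x ∂μ
      = ∫ x in F, ∑' p, Wfam71 r s φ F C₀ rep Fc p x ∂μ :=
    setIntegral_congr_fun hF.meas (fun x hx =>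
      tsum_twTerm_eq71 r s φ F C₀ rep Fc hP.rat hslab hF.sub hC₀ hrep hFc x hx)
  have e2 : ∫ x in F, ∑' p, Wfam71 r s φ F C₀ rep Fc p x ∂μ
      = ∫ x, ∑' p, Wfam71 r s φ F C₀ rep Fc p x ∂μ := by
    refine setIntegral_eq_integral_of_forall_compl_eq_zero (fun x hx => ?_)
    have : ∀ p, Wfam71 r s φ F C₀ rep Fc p x = 0 := fun p =>
      wfun71_of_notMem ratG F _ _ _ hx
    simp only [this, tsum_zero]
  have e3 : ∫ x, ∑' p, Wfam71 r s φ F C₀ rep Fc p x ∂μ
      = ∑' p, ∫ x, Wfam71 r s φ F C₀ rep Fc p x ∂μ := hHS.tsum_eq.symm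
  have e4 : ∑' p, ∫ x, Wfam71 r s φ F C₀ rep Fc p x ∂μ
      = ∑' c : ↥C₀, ∑' g, ∫ x, Wfam71 r s φ F C₀ rep Fc (c, g) x ∂μ :=
    hHS.summable.tsum_prod' (fun c => (hclass c).summable)
  have e5 : ∑' c : ↥C₀, ∑' g,
        ∫ x, Wfam71 r s φ F C₀ rep Fc (c, g) x ∂μ
      = ∑ c : ↥C₀, ∫ x in Fc c, twTerm r s φ (rep c) x ∂μ := by
    rw [tsum_fintype]
    exact Finset.sum_congr rfl (fun c _ => (hclass c).tsum_eq)
  have e6 : ∑ᶠ c : TwClass s, ∫ x in Fc c, twTerm r s φ (rep c) x ∂μ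
      = ∑ c ∈ C₀, ∫ x in Fc c, twTerm r s φ (rep c) x ∂μ := by
    refine finsum_eq_sum_of_support_subset _ (fun c hc => ?_)
    rw [Function.mem_support] at hc
    by_contra hcn
    apply hc
    have hz : ∀ x, twTerm r s φ (rep c) x = 0 := by
      intro x
      by_contra hx
      apply hcn
      have := hC₀ (rep c) x hx
      rwa [hrep c] at this
    simp only [hz, integral_zero]
  rw [e1, e2, e3, e4, e5, e6,
    Finset.sum_coe_sort C₀ (fun c => ∫ x in Fc c, twTerm r s φ (rep c) x ∂μ)]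

/-- **T5.08**, from the product formula (`T1.AdNormC`, closed in tower T1). -/
theorem leafTwUnfold_of71 (s : AdelicAut K) (𝔫 : Ideal (𝓞 K)) (τ : G K → ℂ)
    (h : Fermat.Agent.LT.T1.AdNormC K) : LeafTwUnfold s 𝔫 τ :=
  leafTwUnfold_of_slab71 s 𝔫 τ (slab_ratG_mul71 h)

end concrete71

end Fermat.Agent.LT.T5.H71

end
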