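import Mathlib
import Fermat.Agent.LT.T5.H71.TwUnfold
import Fermat.Agent.LT.T1.H309.AdNorm

/-!
# Row LT, tower T5, leaf T5.08 `LeafTwUnfold`, closed form (helper71)

OFF-MAIN.  Spec v3 (FREEZE, helper32@c970d419b).  `leafTwUnfold71 s 𝔫 τ : LeafTwUnfold s 𝔫 τ`,
unconditional, every number field `K`, every `AdelicAut K`, every level, every `τ`: `leafTwUnfold_of71` (this seat) applied to the product formula
`adNormC309` (helper309, leaf T1.05; byte-identical copy of the file integrated on
origin/helper54).
-/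

set_option autoImplicit false

open IsDedekindDomain NumberField

noncomputable section

namespace Fermat.Agent.LT.T5.H71

open Fermat.Agent.LT.H556.A0 Fermat.Agent.LT.T5

/-- **T5.08 `LeafTwUnfold`**, unconditional. -/
theorem leafTwUnfold71 {K : Type} [Field K] [NumberField K] (s : AdelicAut K)
    (𝔫 : Ideal (𝓞 K)) (τ : G K → ℂ) : LeafTwUnfold s 𝔫 τ :=
  leafTwUnfold_of71 s 𝔫 τ (Fermat.Agent.LT.T1.H309.adNormC309 K)

end Fermat.Agent.LT.T5.H71

end
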